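/-
Programme S33x (reduction of S33), input (b3) (helper9): **the inertia group at `p` acts on `μ_p`
through a character which is not congruent to `1`**.

For a prime `p ≠ 2` and a valuation subring `A` of `ℚ̄` lying over `p` there is `τ` in the inertia
group of `A` with `τ ζ = ζ ^ 2` for every `p`-th root of unity `ζ`; consequently
`cyclo p τ ≡ 2 (mod p)` and `cyclo p τ - 1` is a unit of `ℤ_[p]`.

Route: `K = ℚ(ζ)`, `τ₀ ∈ Gal(K/ℚ)` with `τ₀ ζ = ζ²` (conjugate roots of the irreducible cyclotomic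
polynomial); the ring of integers of `K` is `ℤ[ζ]`, so `τ₀ x - x` is divisible by `ζ² - ζ` for
every integral `x`, and `ζ - 1` lies in the maximal ideal of `A` (characteristic `p` residue field);
then `S13.UnramBridge.exists_inertia_lift` lifts `τ₀` to the inertia group of `A`.
-/
import Mathlib
import Fermat.Agent.S13.UnramBridge
import Fermat.Agent.ES.J.CycloChar8

set_option autoImplicit false
set_option linter.style.haveILetI false

noncomputable section

namespace Fermat.Agent.S33x.InertiaCyclo9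

open Polynomial
open Fermat.Agent.ES.J.CycloChar8

local notation "Qb" => AlgebraicClosure ℚ
local notation "GQ" => (AlgebraicClosure ℚ ≃ₐ[ℚ] AlgebraicClosure ℚ)

/-- the residue field of a valuation subring over `p` has characteristic `p`. -/
theorem charP_residue {L : Type*} [Field L] (A : ValuationSubring L) {p : ℕ} (hp : p.Prime)
    (hA : A.LiesOverPrime p) : CharP (IsLocalRing.ResidueField A) p := by
  rw [CharP.charP_iff_prime_eq_zero hp]
  obtain ⟨hmem, hmax⟩ := ValuationSubring.mem_nonunits_iff_exists_mem_maximalIdeal.mp hA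
  have h1 : (⟨(p : L), hmem⟩ : A) = ((p : ℕ) : A) := Subtype.ext (by simp)
  rw [h1, ← IsLocalRing.residue_eq_zero_iff, map_natCast] at hmax
  exact hmax

/-- a `p`-th root of unity is congruent to `1` modulo the maximal ideal of a valuation subring
over `p`. -/
theorem sub_one_mem_nonunits {L : Type*} [Field L] (A : ValuationSubring L) {p : ℕ} (hp : p.Prime)
    (hA : A.LiesOverPrime p) {ζ : L} (hζ : ζ ^ p = 1) : ζ - 1 ∈ A.nonunits := by
  have : Fact p.Prime := ⟨hp⟩
  have : CharP (IsLocalRing.ResidueField A) p := charP_residue A hp hA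
  have hζA : ζ ∈ A := by
    have h1 : A.valuation ζ ^ p = 1 := by rw [← map_pow, hζ, map_one]
    have h2 : A.valuation ζ = 1 := (pow_eq_one_iff_of_nonneg zero_le hp.ne_zero).mp h1
    exact (ValuationSubring.valuation_le_one_iff A ζ).mp h2.le
  rw [ValuationSubring.mem_nonunits_iff_exists_mem_maximalIdeal]
  refine ⟨A.sub_mem hζA A.one_mem, ?_⟩
  rw [← IsLocalRing.residue_eq_zero_iff]
  set z : A := ⟨ζ, hζA⟩ with hz
  have hzp : z ^ p = 1 := Subtype.ext (by simpa using hζ)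
  have h3 : (⟨ζ - 1, A.sub_mem hζA A.one_mem⟩ : A) = z - 1 := Subtype.ext (by simp [hz])
  rw [h3]
  have h4 : (IsLocalRing.residue A (z - 1)) ^ p = 0 := by
    rw [map_sub, map_one, sub_pow_char, one_pow, ← map_pow, hzp, map_one, sub_self]
  exact pow_eq_zero_iff hp.ne_zero |>.mp h4

variable (p : ℕ) [hp : Fact p.Prime]

/-- **(b3), root-of-unity form.** -/
theorem exists_inertia_pow_two (hp2 : p ≠ 2) (A : ValuationSubring Qb) (hA : A.LiesOverPrime p) :
    ∃ τ ∈ A.inertiaSubgroupIn ℚ, ∀ ζ : Qb, ζ ^ p = 1 → τ ζ = ζ ^ 2 := by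
  classical
  obtain ⟨ζ, hζ'⟩ := exists_primitiveRoot p 1
  have hζ : IsPrimitiveRoot ζ p := by simpa using hζ'
  have hp0 : p ≠ 0 := hp.out.ne_zero
  haveI : NeZero p := ⟨hp0⟩
  -- the conjugate `ζ²`
  have hcop : Nat.Coprime 2 p := by
    rw [Nat.coprime_comm]
    exact (Nat.coprime_primes hp.out Nat.prime_two).mpr hp2
  have hζ2 : IsPrimitiveRoot (ζ ^ 2) p := hζ.pow_of_coprime 2 hcop
  have hirr : Irreducible (cyclotomic p ℚ) := cyclotomic.irreducible_rat hp.out.pos
  have hmin : minpoly ℚ ζ = cyclotomic p ℚ :=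
    (cyclotomic_eq_minpoly_rat hζ hp.out.pos).symm
  have hroot : aeval (ζ ^ 2) (minpoly ℚ ζ) = 0 := by
    rw [hmin, aeval_def, eval₂_eq_eval_map, map_cyclotomic]
    exact hζ2.isRoot_cyclotomic hp.out.pos
  have halg : IsAlgebraic ℚ ζ := Algebra.IsAlgebraic.isAlgebraic ζ
  obtain ⟨σ₀, hσ₀⟩ := minpoly.exists_algEquiv_of_root' (K := ℚ) (L := Qb) halg hroot
  -- the field `K = ℚ(ζ)`
  set K : IntermediateField ℚ Qb := IntermediateField.adjoin ℚ {ζ} with hK
  haveI hcyc : IsCyclotomicExtension {p} ℚ K := hζ.intermediateField_adjoin_isCyclotomicExtension ℚ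
  haveI : IsGalois ℚ K := IsCyclotomicExtension.isGalois {p} ℚ K
  have hζK : ζ ∈ K := IntermediateField.mem_adjoin_simple_self ℚ ζ
  set ζK : K := ⟨ζ, hζK⟩ with hζKdef
  have hζKprim : IsPrimitiveRoot ζK p := by
    have : (algebraMap K Qb) ζK = ζ := rfl
    exact IsPrimitiveRoot.of_map_of_injective (f := algebraMap K Qb)
      (by rw [this]; exact hζ) (algebraMap K Qb).injective
  let τ₀ : K ≃ₐ[ℚ] K := σ₀.restrictNormal K
  have hτ₀ : ∀ x : K, ((τ₀ x : K) : Qb) = σ₀ x := fun x => AlgEquiv.restrictNormal_commutes σ₀ K x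
  -- `ζ - 1` and hence `ζ² - ζ` lie in the maximal ideal
  have hζ1 : ζ - 1 ∈ A.nonunits := sub_one_mem_nonunits A hp.out hA hζ.pow_eq_one
  have hζA : ζ ∈ A := mem_of_pow_eq_one hp0 hζ.pow_eq_one
  -- integral elements of `K` are polynomials in `ζ` with integer coefficients
  have hint : ∀ x : K, IsIntegral ℤ x → (((τ₀ x : K) : Qb) - x) ∈ A.nonunits := by
    intro x hx
    have hic : IsIntegralClosure (Algebra.adjoin ℤ ({ζK} : Set K)) ℤ K :=
      IsCyclotomicExtension.Rat.isIntegralClosure_adjoin_singleton_of_prime hζKprim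
    obtain ⟨y, hy⟩ := (hic.isIntegral_iff).mp hx
    obtain ⟨f, hf⟩ : ∃ f : ℤ[X], aeval ζK f = x := by
      have hy' : (y : K) ∈ (aeval ζK : ℤ[X] →ₐ[ℤ] K).range := by
        rw [← Algebra.adjoin_singleton_eq_range_aeval]
        exact y.2
      obtain ⟨f, hf⟩ := hy'
      exact ⟨f, by rw [← hy]; exact hf⟩
    have hx1 : ((x : K) : Qb) = aeval ζ f := by
      rw [← hf]
      have : ((aeval ζK f : K) : Qb) = algebraMap K Qb (aeval ζK f) := rfl
      rw [this, ← aeval_algebraMap_apply]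
      rfl
    have hx2 : σ₀ (x : Qb) = aeval (ζ ^ 2) f := by
      rw [hx1, ← hσ₀]
      exact (aeval_algHom_apply (σ₀ : Qb →ₐ[ℚ] Qb).toRingHom.toIntAlgHom ζ f).symm
    rw [hτ₀, hx2, hx1]
    -- work inside the ring `A`
    set z : A := ⟨ζ, hζA⟩ with hz
    have hdvd : z ^ 2 - z ∣ aeval (z ^ 2) f - aeval z f := by
      rw [aeval_def, aeval_def, eval₂_eq_eval_map, eval₂_eq_eval_map]
      exact sub_dvd_eval_sub _ _ _
    obtain ⟨c, hc⟩ := hdvd
    have hval : aeval (ζ ^ 2) f - aeval ζ f = ((z ^ 2 - z) * c : A) := by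
      rw [← hc]
      have h1 : ((aeval (z ^ 2) f : A) : Qb) = aeval (ζ ^ 2) f := by
        have : ((aeval (z ^ 2) f : A) : Qb) = algebraMap A Qb (aeval (z ^ 2) f) := rfl
        rw [this, ← aeval_algebraMap_apply]
        rfl
      have h2 : ((aeval z f : A) : Qb) = aeval ζ f := by
        have : ((aeval z f : A) : Qb) = algebraMap A Qb (aeval z f) := rfl
        rw [this, ← aeval_algebraMap_apply]
        rfl
      push_cast
      rw [h1, h2]
    rw [hval]
    have h3 : ((z ^ 2 - z) * c : A) = ((z - 1) * (z * c) : A) := by ring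
    rw [h3]
    have h4 : (z - 1 : A) ∈ IsLocalRing.maximalIdeal A := by
      obtain ⟨hm, hmax⟩ := ValuationSubring.mem_nonunits_iff_exists_mem_maximalIdeal.mp hζ1
      have : (⟨ζ - 1, hm⟩ : A) = z - 1 := Subtype.ext (by simp [hz])
      rwa [this] at hmax
    have h5 : ((z - 1) * (z * c) : A) ∈ IsLocalRing.maximalIdeal A :=
      Ideal.mul_mem_right _ _ h4
    exact ValuationSubring.mem_nonunits_iff_exists_mem_maximalIdeal.mpr ⟨_, h5⟩
  obtain ⟨τ, hτI, hτK⟩ :=
    Fermat.Agent.S13.UnramBridge.exists_inertia_lift K A hp.out hA τ₀ hint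
  refine ⟨τ, hτI, ?_⟩
  have hτζ : τ ζ = ζ ^ 2 := by
    have h1 := hτK ζK
    rw [hτ₀] at h1
    have : ((ζK : K) : Qb) = ζ := rfl
    rw [this] at h1
    rw [h1, hσ₀]
  intro η hη
  obtain ⟨i, -, rfl⟩ := hζ.eq_pow_of_pow_eq_one hη
  rw [map_pow, hτζ]
  ring

/-- **(b3), `ℤ_[p]` form**: some element of the inertia group at `p` has cyclotomic character
`≡ 2 mod p`; in particular `cyclo p τ - 1` is a unit. -/
theorem exists_inertia_cyclo_sub_one_isUnit (hp2 : p ≠ 2) (A : ValuationSubring Qb)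
    (hA : A.LiesOverPrime p) :
    ∃ τ ∈ A.inertiaSubgroupIn ℚ, IsUnit (((cyclo p τ : ℤ_[p]ˣ) : ℤ_[p]) - 1) := by
  obtain ⟨τ, hτI, hτ⟩ := exists_inertia_pow_two p hp2 A hA
  refine ⟨τ, hτI, ?_⟩
  obtain ⟨ζ, hζ⟩ := exists_primitiveRoot p 1
  have h1 : τ ζ = ζ ^ 2 := hτ ζ (by simpa using hζ.pow_eq_one)
  have h2 := toZModPow_cyclo p hζ h1
  -- `cyclo τ - 1 ≡ 1 mod p`
  have hx : ((cyclo p τ : ℤ_[p]ˣ) : ℤ_[p]).toZModPow 1 = ((2 : ℕ) : ZMod (p ^ 1)) := h2
  by_contra hnu
  have hmem : ((cyclo p τ : ℤ_[p]ˣ) : ℤ_[p]) - 1 ∈ IsLocalRing.maximalIdeal ℤ_[p] :=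
    (IsLocalRing.mem_maximalIdeal _).mpr (mem_nonunits_iff.mpr hnu)
  rw [PadicInt.maximalIdeal_eq_span_p, ← pow_one (p : ℤ_[p]), ← PadicInt.ker_toZModPow,
    RingHom.mem_ker, map_sub, map_one, hx] at hmem
  have h10 : (1 : ZMod (p ^ 1)) = 0 := by
    have h21 : ((2 : ℕ) : ZMod (p ^ 1)) - 1 = 1 := by push_cast; ring
    rw [h21] at hmem
    exact hmem
  haveI : Fact (1 < p ^ 1) := ⟨by rw [pow_one]; exact hp.out.one_lt⟩
  exact one_ne_zero h10

/-- **(b3), `T`-form**: for any `ℤ_[p]`-algebra `T` the element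
`algebraMap ℤ_[p] T (cyclo p τ) - 1` (this is `S32x.EigenW5A.dT p T τ - 1`, by `rfl`) is a unit for
a suitable `τ` in the inertia group at `p`. -/
theorem exists_inertia_algebraMap_cyclo_sub_one_isUnit (hp2 : p ≠ 2) (A : ValuationSubring Qb)
    (hA : A.LiesOverPrime p) (T : Type*) [CommRing T] [Algebra ℤ_[p] T] :
    ∃ τ ∈ A.inertiaSubgroupIn ℚ,
      IsUnit (algebraMap ℤ_[p] T ((cyclo p τ : ℤ_[p]ˣ) : ℤ_[p]) - 1) := by
  obtain ⟨τ, hτI, hu⟩ := exists_inertia_cyclo_sub_one_isUnit p hp2 A hA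
  refine ⟨τ, hτI, ?_⟩
  have := hu.map (algebraMap ℤ_[p] T)
  rwa [map_sub, map_one] at this

end Fermat.Agent.S33x.InertiaCyclo9
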