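/-
Programme S33x (reduction of S33), chapter B (helper3): **the Galois inputs**.

For a Hecke–Galois datum `H` over `(𝒪, T)` of level `N` away from `S` (`p ∈ S`, primes of `N` in `S`)
and an ARBITRARY instance `[Algebra ℤ_[p] T]`:

* `det_eq_algebraMap_cyclo` : `det (H.ρ.ρ g) = algebraMap ℤ_[p] T (cyclo p g)` for every `g ∈ G_ℚ`
  (the determinant is the `p`-adic cyclotomic character; density of Frobenius powers
  `ChebQbar23.exists_frobenius_inv_mul_pow_fixes` + `H.charpoly_frob` + Krull on `T`);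
* `exists_mem_inertia_cyclo_ne` : for `p` odd and `P` over `p` there is `τ ∈ I_P` with
  `cyclo p τ ≢ 1 mod p` (otherwise the kernel of the mod `p` cyclotomic character would contain an
  inertia group at every prime, hence be everything by `S13.UnramBridge`, but `ε(c) = -1`);
* `exists_mem_inertia_isUnit_det_sub_one` : hence `τ ∈ I_P` with `det (H.ρ.ρ τ) - 1` a unit of `T`;
* `conj_mem_inertiaSubgroupIn` : `I_P` is normalised by `D_P` (in the `inertiaSubgroupIn` form).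
-/
import Mathlib
import Fermat.Prelude.Def_CuspForm_HeckeGaloisRepDatum
import Fermat.Prelude.Def_FLTPrelim_Ramification
import Fermat.Agent.ES.J.CycloChar8
import Fermat.Agent.ES.GAL.ChebQbar23
import Fermat.Agent.ES.N34.TraceTwo12
import Fermat.Agent.S13.UnramBridge

set_option autoImplicit false
set_option linter.unusedSectionVars false
set_option synthInstance.maxHeartbeats 400000

open Polynomial CuspForm

noncomputable section

namespace Fermat.Agent.S33x.DetCyclo3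

open Fermat.Agent.ES.ALG.RelDense9 Fermat.Agent.ES.J.CycloChar8 Fermat.Agent.ES.ALG31.Lucas15
  Fermat.Agent.ES.N34.TraceTwo12

local notation "Qb" => AlgebraicClosure ℚ
local notation "GQ" => (AlgebraicClosure ℚ ≃ₐ[ℚ] AlgebraicClosure ℚ)

/-! ### normality of inertia in the decomposition group -/

/-- `I_P` is normalised by `D_P`. -/
theorem conj_mem_inertiaSubgroupIn {K L : Type*} [Field K] [Field L] [Algebra K L]
    (P : ValuationSubring L) {g σ : L ≃ₐ[K] L} (hg : g ∈ P.decompositionSubgroup K)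
    (hσ : σ ∈ P.inertiaSubgroupIn K) : g⁻¹ * σ * g ∈ P.inertiaSubgroupIn K := by
  obtain ⟨s, hs, rfl⟩ := hσ
  have hnormal : (P.inertiaSubgroup K).Normal := by
    unfold ValuationSubring.inertiaSubgroup
    infer_instance
  refine ⟨(⟨g, hg⟩ : P.decompositionSubgroup K)⁻¹ * s * ⟨g, hg⟩, ?_, rfl⟩
  have := hnormal.conj_mem s hs (⟨g, hg⟩ : P.decompositionSubgroup K)⁻¹
  rwa [inv_inv] at this

/-! ### inertia at `p` moves `μ_p` -/

section Inertia

variable (p : ℕ) [hp : Fact p.Prime]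

/-- the mod `p` cyclotomic character. -/
def cycloBar : GQ →* (ZMod p)ˣ :=
  (Units.map ((PadicInt.toZMod : ℤ_[p] →+* ZMod p) : ℤ_[p] →* ZMod p)).comp (cyclo p)

theorem coe_cycloBar (σ : GQ) :
    ((cycloBar p σ : (ZMod p)ˣ) : ZMod p) = PadicInt.toZMod ((cyclo p σ : ℤ_[p]ˣ) : ℤ_[p]) := rfl

theorem mem_ker_cycloBar_iff (σ : GQ) :
    σ ∈ (cycloBar p).ker ↔ ((cyclo p σ : ℤ_[p]ˣ) : ℤ_[p]) - 1 ∈ Ideal.span {(p : ℤ_[p])} := by
  rw [MonoidHom.mem_ker, ← PadicInt.maximalIdeal_eq_span_p, ← PadicInt.ker_toZMod, RingHom.mem_ker,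
    map_sub, map_one, sub_eq_zero, ← coe_cycloBar, Units.val_eq_one]

/-- **Inertia at an odd `p` acts nontrivially on `μ_p`.** -/
theorem exists_mem_inertia_cyclo_ne (hp2 : p ≠ 2) (P : ValuationSubring Qb)
    (hP : P.LiesOverPrime p) :
    ∃ τ ∈ P.inertiaSubgroupIn ℚ, IsUnit (((cyclo p τ : ℤ_[p]ˣ) : ℤ_[p]) - 1) := by
  by_contra hcon
  push Not at hcon
  -- then `I_P ≤ ker (cycloBar p)`
  have hIP : P.inertiaSubgroupIn ℚ ≤ (cycloBar p).ker := by
    intro τ hτ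
    rw [mem_ker_cycloBar_iff, ← PadicInt.maximalIdeal_eq_span_p, IsLocalRing.mem_maximalIdeal,
      mem_nonunits_iff]
    exact hcon τ hτ
  obtain ⟨F, hF, hFker⟩ := cyclo_sub_one_mem p 1
  have hFN : F.fixingSubgroup ≤ (cycloBar p).ker := by
    intro σ hσ
    rw [mem_ker_cycloBar_iff]
    have := hFker σ (fun x hx => (IntermediateField.mem_fixingSubgroup_iff F σ).mp hσ x hx)
    rwa [pow_one] at this
  have htop : (cycloBar p).ker = ⊤ := by
    refine Fermat.Agent.S13.UnramBridge.eq_top_of_forall_exists_inertia_le _ F hFN ?_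
    intro q hq
    by_cases hqp : q = p
    · subst hqp
      exact ⟨P, hP, hIP⟩
    · obtain ⟨A, hA⟩ := Fermat.Agent.S13.UnramBridge.exists_liesOverPrime_qbar q hq
      refine ⟨A, hA, fun τ hτ => ?_⟩
      rw [MonoidHom.mem_ker, cycloBar, MonoidHom.comp_apply, cyclo_of_mem_inertia p hq hqp A hA hτ,
        map_one]
  -- but complex conjugation is not in the kernel
  have hc : complexConjugation ∈ (cycloBar p).ker := by rw [htop]; exact Subgroup.mem_top _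
  rw [mem_ker_cycloBar_iff, cyclo_complexConjugation, ← PadicInt.maximalIdeal_eq_span_p,
    ← PadicInt.ker_toZMod, RingHom.mem_ker, map_sub, map_neg, map_one] at hc
  have h2 : ((2 : ℕ) : ZMod p) = 0 := by
    have : (-1 - 1 : ZMod p) = -((2 : ℕ) : ZMod p) := by push_cast; ring
    rw [this, neg_eq_zero] at hc
    exact hc
  rw [ZMod.natCast_eq_zero_iff] at h2
  exact hp2 ((Nat.prime_dvd_prime_iff_eq hp.out Nat.prime_two).mp h2)

end Inertia

/-! ### the determinant of the datum is cyclotomic -/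

section Datum

variable {p : ℕ} [hp : Fact p.Prime] {N : ℕ} [NeZero N] {S : Finset ℕ}
  {𝒪 : Type} [CommRing 𝒪] [IsDomain 𝒪] [IsDiscreteValuationRing 𝒪]
  [IsAdicComplete (IsLocalRing.maximalIdeal 𝒪) 𝒪]
  {θ : CuspForm.heckeAlgebra N 2 (↑S : Set ℕ) →+* IsLocalRing.ResidueField 𝒪}
  {T : Type} [CommRing T] [IsLocalRing T] [IsNoetherianRing T]
  [IsAdicComplete (IsLocalRing.maximalIdeal T) T] [Algebra 𝒪 T] [IsLocalHom (algebraMap 𝒪 T)]
  [Module.Finite 𝒪 T] [Module.Free 𝒪 T] [Algebra ℤ_[p] T]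

/-- Krull on `T`. -/
theorem eq_zero_of_forall_mem_pow (x : T) (hx : ∀ n, x ∈ IsLocalRing.maximalIdeal T ^ n) :
    x = 0 := by
  have h := Ideal.iInf_pow_eq_bot_of_isLocalRing (IsLocalRing.maximalIdeal T)
    (Ideal.IsMaximal.ne_top inferInstance)
  have hx' : x ∈ (⨅ i : ℕ, IsLocalRing.maximalIdeal T ^ i : Ideal T) := by
    rw [Ideal.mem_iInf]
    exact hx
  rw [h] at hx'
  exact hx'

/-- **The determinant of the Galois representation of a Hecke–Galois datum is the `p`-adic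
cyclotomic character.** -/
theorem det_eq_algebraMap_cyclo (hpT : (p : T) ∈ IsLocalRing.maximalIdeal T) (hpS : p ∈ S)
    (hNS : ∀ q : ℕ, q.Prime → q ∣ N → q ∈ S)
    (H : CuspForm.HeckeGaloisRepDatum N (↑S : Set ℕ) 𝒪 θ T) (g : GQ) :
    LinearMap.det (H.ρ.ρ g) = algebraMap ℤ_[p] T ((cyclo p g : ℤ_[p]ˣ) : ℤ_[p]) := by
  classical
  rw [← sub_eq_zero]
  apply eq_zero_of_forall_mem_pow
  intro n
  set 𝔪 := IsLocalRing.maximalIdeal T with h𝔪
  have hV : Module.finrank T H.ρ.V = 2 := H.ρ.finrank_eq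
  obtain ⟨L₁, hL₁, h1⟩ := H.ρ.isAdicContinuous n
  obtain ⟨L₃, hL₃, h3⟩ := cyclo_sub_one_mem p n
  have := hL₁
  have := hL₃
  obtain ⟨ℓ, A, φ, j, hℓ, hℓS, hA, hφ, hj⟩ :=
    Fermat.Agent.ES.GAL.ChebQbar23.exists_frobenius_inv_mul_pow_fixes (L₁ ⊔ L₃) g S
  have hℓS' : ℓ ∉ (↑S : Set ℕ) := by simpa using hℓS
  have hℓN : ¬ ℓ ∣ N := fun hdvd => hℓS (hNS ℓ hℓ hdvd)
  have hℓp : ℓ ≠ p := fun h => hℓS (h ▸ hpS)
  obtain ⟨h, hh⟩ : ∃ h : GQ, h = g⁻¹ * φ ^ j := ⟨_, rfl⟩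
  rw [← hh] at hj
  have hφj : φ ^ j = g * h := by rw [hh, mul_inv_cancel_left]
  -- `ρ h ≡ 1`
  have hcongr : EndCongr (𝔪 ^ n) (H.ρ.ρ h) 1 := by
    intro v
    rw [Module.End.one_apply]
    exact h1 _ (fun x hx => hj x (le_sup_left (a := L₁) (b := L₃) hx)) v
  have h7 : LinearMap.det (H.ρ.ρ h) - 1 ∈ 𝔪 ^ n := by
    have := det_sub_mem_of_endCongr hcongr
    rwa [show LinearMap.det (1 : Module.End T H.ρ.V) = 1 from map_one _] at this
  -- `ε h ≡ 1`
  have h8 : algebraMap ℤ_[p] T ((cyclo p h : ℤ_[p]ˣ) : ℤ_[p]) - 1 ∈ 𝔪 ^ n := by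
    have h4 := h3 _ (fun x hx => hj x (le_sup_right (a := L₁) (b := L₃) hx))
    obtain ⟨y, hy⟩ := Ideal.mem_span_singleton'.mp h4
    have e : algebraMap ℤ_[p] T ((cyclo p h : ℤ_[p]ˣ) : ℤ_[p]) - 1 =
        algebraMap ℤ_[p] T y * (p : T) ^ n := by
      rw [← map_one (algebraMap ℤ_[p] T), ← map_sub, ← hy, map_mul, map_pow, map_natCast]
    rw [e]
    exact Ideal.mul_mem_left _ _ (Ideal.pow_mem_pow hpT n)
  -- Frobenius
  have hdetφ : LinearMap.det (H.ρ.ρ φ) = (ℓ : T) :=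
    (trace_det_of_charpoly hV _ (H.charpoly_frob ℓ hℓ hℓN hℓS' A hA φ hφ)).2
  have hcycφ : algebraMap ℤ_[p] T ((cyclo p φ : ℤ_[p]ˣ) : ℤ_[p]) = (ℓ : T) := by
    rw [cyclo_of_isFrobeniusAt p hℓ hℓp A hA hφ, map_natCast]
  have hdetφj : LinearMap.det (H.ρ.ρ (φ ^ j)) = (ℓ : T) ^ j := by
    rw [map_pow, map_pow, hdetφ]
  have e1 : LinearMap.det (H.ρ.ρ g) * LinearMap.det (H.ρ.ρ h) = (ℓ : T) ^ j := by
    have e0 : H.ρ.ρ (φ ^ j) = H.ρ.ρ g * H.ρ.ρ h := by rw [← map_mul, ← hφj]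
    rw [← hdetφj, e0, Module.End.mul_eq_comp, LinearMap.det_comp]
  have hcycφj : algebraMap ℤ_[p] T ((cyclo p (φ ^ j) : ℤ_[p]ˣ) : ℤ_[p]) = (ℓ : T) ^ j := by
    rw [map_pow, Units.val_pow_eq_pow_val, map_pow, hcycφ]
  have e2 : algebraMap ℤ_[p] T ((cyclo p g : ℤ_[p]ˣ) : ℤ_[p]) *
      algebraMap ℤ_[p] T ((cyclo p h : ℤ_[p]ˣ) : ℤ_[p]) = (ℓ : T) ^ j := by
    have e0 : cyclo p (φ ^ j) = cyclo p g * cyclo p h := by rw [← map_mul, ← hφj]
    rw [← hcycφj, e0, Units.val_mul, map_mul]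
  have e : LinearMap.det (H.ρ.ρ g) - algebraMap ℤ_[p] T ((cyclo p g : ℤ_[p]ˣ) : ℤ_[p]) =
      algebraMap ℤ_[p] T ((cyclo p g : ℤ_[p]ˣ) : ℤ_[p]) *
        (algebraMap ℤ_[p] T ((cyclo p h : ℤ_[p]ˣ) : ℤ_[p]) - 1) -
      LinearMap.det (H.ρ.ρ g) * (LinearMap.det (H.ρ.ρ h) - 1) := by
    have := e1.trans e2.symm
    linear_combination this
  rw [e]
  exact Ideal.sub_mem _ (Ideal.mul_mem_left _ _ h8) (Ideal.mul_mem_left _ _ h7)

/-- **The element `τ` of the S33 reduction**: for `p` odd and `P` over `p` there is `τ ∈ I_P` with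
`det (H.ρ.ρ τ) - 1` a unit of `T`. -/
theorem exists_mem_inertia_isUnit_det_sub_one (hp2 : p ≠ 2)
    (hpT : (p : T) ∈ IsLocalRing.maximalIdeal T) (hpS : p ∈ S)
    (hNS : ∀ q : ℕ, q.Prime → q ∣ N → q ∈ S)
    (H : CuspForm.HeckeGaloisRepDatum N (↑S : Set ℕ) 𝒪 θ T)
    (P : ValuationSubring Qb) (hP : P.LiesOverPrime p) :
    ∃ τ ∈ P.inertiaSubgroupIn ℚ, IsUnit (LinearMap.det (H.ρ.ρ τ) - 1) := by
  obtain ⟨τ, hτ, hu⟩ := exists_mem_inertia_cyclo_ne p hp2 P hP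
  refine ⟨τ, hτ, ?_⟩
  rw [det_eq_algebraMap_cyclo hpT hpS hNS H τ, ← map_one (algebraMap ℤ_[p] T), ← map_sub]
  exact hu.map (algebraMap ℤ_[p] T)

end Datum

end Fermat.Agent.S33x.DetCyclo3
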