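/-
Programme S33x (reduction of S33), chapter A (helper3): **the abstract algebra core**.

`T` a reduced local ring, `V` free of rank two over `T`, `ρ : G →* End_T V`, subgroups `I, D ≤ G` with
`I` normalised by `D` (think `I = I_P`, `D = D_P` for a place `P` over `p`), `τ ∈ I` such that
`det ρ(τ) - 1` is a UNIT of `T` (think: the cyclotomic character of `τ` is `≢ 1 mod p`), and

  (HG) for every minimal prime `𝔭` of `T` there is a nonzero `I`-invariant `T`-linear functional
       `φ : V → M` into a `T`-module `M` on which `t • m = 0 → t ∈ 𝔭 ∨ m = 0`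
       (e.g. `M = FractionRing (T ⧸ 𝔭)`).

Then there is a line `L = T ∙ b 0` (first vector of a basis `b` of `V`) which is `D`-stable and such
that `(σ - 1) V ⊆ L` for all `σ ∈ I`: this is literally the body of `GaloisRepAdic.IsOrdinaryAt`.

No Hensel, no residual hypothesis: (HG) forces `det (ρ τ - 1)` into every minimal prime, so (reduced)
`(ρ τ - 1)² = (δ - 1)(ρ τ - 1)` with `δ = det ρ τ`, and `E = (δ - 1)⁻¹ (ρ τ - 1)` is an idempotent
splitting `V = V_δ ⊕ V_1` into two free rank-one eigen-lines; `L = V_δ`.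

Main results:
* `sq_eq_of_finrank_two`, `det_one_add_of_finrank_two` : Cayley–Hamilton and `det (1 + f)` in rank 2;
* `eq_zero_of_forall_mem_minimalPrimes` : an element of every minimal prime of a reduced ring is `0`;
* `exists_basis_of_isIdempotentElem` : an idempotent `E ≠ 0, 1` on a free rank-2 module over a local
  ring has an adapted basis;
* `exists_line_of_invariant_functionals` : the core theorem.
-/
import Mathlib

set_option autoImplicit false

open Polynomial

namespace Fermat.Agent.S33x.OrdAlg3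

universe u v w x

section RankTwo

variable {T : Type u} [CommRing T] [Nontrivial T]
  {V : Type v} [AddCommGroup V] [Module T V] [Module.Free T V] [Module.Finite T V]

/-- Cayley–Hamilton in rank two: `f² = tr(f) f - det(f)`. -/
theorem sq_eq_of_finrank_two (hV : Module.finrank T V = 2) (f : Module.End T V) :
    f * f = LinearMap.trace T V f • f - LinearMap.det f • (1 : Module.End T V) := by
  classical
  let b : Module.Basis (Fin 2) T V := Module.finBasisOfFinrankEq T V hV
  have hch : f.charpoly = X ^ 2 - C (LinearMap.trace T V f) * X + C (LinearMap.det f) := by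
    rw [← LinearMap.charpoly_toMatrix f b, Matrix.charpoly_fin_two,
      ← LinearMap.trace_eq_matrix_trace T b f, LinearMap.det_toMatrix b f]
  have h := LinearMap.aeval_self_charpoly f
  rw [hch] at h
  simp only [map_add, map_sub, map_mul, map_pow, aeval_X, aeval_C] at h
  rw [Algebra.algebraMap_eq_smul_one, Algebra.algebraMap_eq_smul_one, smul_mul_assoc, one_mul,
    pow_two] at h
  rw [← sub_eq_zero]
  rw [← h]
  abel

/-- `det (1 + f) = 1 + tr f + det f` in rank two. -/
theorem det_one_add_of_finrank_two (hV : Module.finrank T V = 2) (f : Module.End T V) :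
    LinearMap.det (1 + f) = 1 + LinearMap.trace T V f + LinearMap.det f := by
  classical
  let b : Module.Basis (Fin 2) T V := Module.finBasisOfFinrankEq T V hV
  rw [← LinearMap.det_toMatrix b (1 + f), ← LinearMap.det_toMatrix b f,
    LinearMap.trace_eq_matrix_trace T b f, map_add]
  have h1 : LinearMap.toMatrix b b (1 : Module.End T V) = 1 := LinearMap.toMatrix_one b
  rw [h1, Matrix.det_fin_two, Matrix.det_fin_two, Matrix.trace_fin_two]
  simp only [Matrix.add_apply, Matrix.one_apply_eq, Matrix.one_apply_ne, ne_eq, Fin.isValue,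
    zero_ne_one, one_ne_zero, not_false_eq_true, zero_add]
  ring

end RankTwo

/-- In a reduced ring, an element lying in every minimal prime is zero. -/
theorem eq_zero_of_forall_mem_minimalPrimes {T : Type u} [CommRing T] [IsReduced T] (t : T)
    (h : ∀ 𝔭 ∈ minimalPrimes T, t ∈ 𝔭) : t = 0 := by
  have h1 : t ∈ sInf (minimalPrimes T) := by
    rw [Ideal.mem_sInf]
    intro 𝔭 h𝔭
    exact h 𝔭 h𝔭
  rw [minimalPrimes, Ideal.sInf_minimalPrimes] at h1
  have h2 : (⊥ : Ideal T).radical = nilradical T := rfl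
  rw [h2, nilradical_eq_zero] at h1
  exact h1

section Idempotent

variable {T : Type u} [CommRing T] [IsLocalRing T]
  {V : Type v} [AddCommGroup V] [Module T V] [Module.Free T V] [Module.Finite T V]

/-- The range of an idempotent endomorphism of a finite free module over a local ring is free. -/
theorem free_range_of_isIdempotentElem (E : Module.End T V) (hE : IsIdempotentElem E) :
    Module.Free T (LinearMap.range E) := by
  have : Module.Finite T (LinearMap.range E) := Module.Finite.range E
  have : Module.Projective T (LinearMap.range E) := by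
    refine Module.Projective.of_split (LinearMap.range E).subtype E.rangeRestrict ?_
    refine LinearMap.ext fun y => Subtype.ext ?_
    obtain ⟨y, w, rfl⟩ := y
    show E (E w) = E w
    have := congrArg (fun g : Module.End T V => g w) hE.eq
    simpa using this
  exact Module.free_of_flat_of_isLocalRing

/-- An idempotent `E` different from `0` and `1` on a free module of rank two over a local ring has
an adapted basis: `E (b 0) = b 0`, `E (b 1) = 0`. -/
theorem exists_basis_of_isIdempotentElem (hV : Module.finrank T V = 2) (E : Module.End T V)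
    (hE : IsIdempotentElem E) (h0 : E ≠ 0) (h1 : E ≠ 1) :
    ∃ b : Module.Basis (Fin 2) T V, E (b 0) = b 0 ∧ E (b 1) = 0 := by
  classical
  have hE' : IsIdempotentElem (1 - E) := hE.one_sub
  have := free_range_of_isIdempotentElem E hE
  have := free_range_of_isIdempotentElem (1 - E) hE'
  have : Module.Finite T (LinearMap.range E) := Module.Finite.range E
  have : Module.Finite T (LinearMap.range (1 - E)) := Module.Finite.range (1 - E)
  have hcompl : IsCompl (LinearMap.range E) (LinearMap.range (1 - E)) := by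
    have := LinearMap.IsIdempotentElem.isCompl hE
    rwa [LinearMap.IsIdempotentElem.ker_eq_range_one_sub hE] at this
  let e := Submodule.prodEquivOfIsCompl _ _ hcompl
  have hsum : Module.finrank T (LinearMap.range E) + Module.finrank T (LinearMap.range (1 - E)) = 2 := by
    rw [← Module.finrank_prod, LinearEquiv.finrank_eq e, hV]
  -- neither range is trivial
  have hne : ∀ (F : Module.End T V), F ≠ 0 → Module.Free T (LinearMap.range F) →
      Module.Finite T (LinearMap.range F) → Module.finrank T (LinearMap.range F) ≠ 0 := by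
    intro F hF _ _ hrk
    apply hF
    let bF : Module.Basis (Fin 0) T (LinearMap.range F) := Module.finBasisOfFinrankEq T _ hrk
    refine LinearMap.ext fun v => ?_
    have : (⟨F v, v, rfl⟩ : LinearMap.range F) = 0 := by
      apply bF.ext_elem
      intro i
      exact i.elim0
    simpa using congrArg Subtype.val this
  have hn1 := hne E h0 inferInstance inferInstance
  have hn2 := hne (1 - E) (fun h => h1 (by rw [sub_eq_zero] at h; exact h.symm)) inferInstance
    inferInstance
  have hr1 : Module.finrank T (LinearMap.range E) = 1 := by omega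
  have hr2 : Module.finrank T (LinearMap.range (1 - E)) = 1 := by omega
  let b1 : Module.Basis (Fin 1) T (LinearMap.range E) := Module.finBasisOfFinrankEq T _ hr1
  let b2 : Module.Basis (Fin 1) T (LinearMap.range (1 - E)) := Module.finBasisOfFinrankEq T _ hr2
  let b : Module.Basis (Fin 2) T V := ((b1.prod b2).map e).reindex finSumFinEquiv
  have hb0 : b 0 = (b1 0 : V) := by
    have h : finSumFinEquiv.symm (0 : Fin 2) = (Sum.inl 0 : Fin 1 ⊕ Fin 1) := by decide
    simp only [b, Module.Basis.reindex_apply, Module.Basis.map_apply, h, e,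
      Module.Basis.prod_apply, Sum.elim_inl, Function.comp_apply, LinearMap.coe_inl,
      Submodule.coe_prodEquivOfIsCompl', ZeroMemClass.coe_zero, add_zero]
  have hb1 : b 1 = (b2 0 : V) := by
    have h : finSumFinEquiv.symm (1 : Fin 2) = (Sum.inr 0 : Fin 1 ⊕ Fin 1) := by decide
    simp only [b, Module.Basis.reindex_apply, Module.Basis.map_apply, h, e,
      Module.Basis.prod_apply, Sum.elim_inr, Function.comp_apply, LinearMap.coe_inr,
      Submodule.coe_prodEquivOfIsCompl', ZeroMemClass.coe_zero, zero_add]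
  refine ⟨b, ?_, ?_⟩
  · rw [hb0]
    exact (LinearMap.IsIdempotentElem.mem_range_iff hE).mp (b1 0).2
  · rw [hb1]
    have h2 : (1 - E) (b2 0 : V) = (b2 0 : V) :=
      (LinearMap.IsIdempotentElem.mem_range_iff hE').mp (b2 0).2
    rw [LinearMap.sub_apply, Module.End.one_apply, sub_eq_self] at h2
    exact h2

end Idempotent

section Core

variable {T : Type u} [CommRing T] [IsLocalRing T] [IsReduced T]
  {V : Type v} [AddCommGroup V] [Module T V] [Module.Free T V] [Module.Finite T V]
  {G : Type w} [Group G]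

/-- **The algebra core of the S33 reduction.** -/
theorem exists_line_of_invariant_functionals
    (hV : Module.finrank T V = 2) (ρ : G →* Module.End T V) (I D : Subgroup G)
    (hnorm : ∀ g ∈ D, ∀ σ ∈ I, g⁻¹ * σ * g ∈ I)
    (τ : G) (hτ : τ ∈ I) (hunit : IsUnit (LinearMap.det (ρ τ) - 1))
    (HG : ∀ 𝔭 ∈ minimalPrimes T, ∃ (M : Type x) (_ : AddCommGroup M) (_ : Module T M),
      (∀ (t : T) (m : M), t • m = 0 → t ∈ 𝔭 ∨ m = 0) ∧
      ∃ φ : V →ₗ[T] M, φ ≠ 0 ∧ ∀ σ ∈ I, ∀ v, φ (ρ σ v) = φ v) :
    ∃ L : Submodule T V, (∃ b : Module.Basis (Fin 2) T V, L = Submodule.span T {b 0}) ∧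
      (∀ σ ∈ D, ∀ v ∈ L, ρ σ v ∈ L) ∧ (∀ σ ∈ I, ∀ v : V, ρ σ v - v ∈ L) := by
  classical
  obtain ⟨u, hu⟩ := hunit
  set A : Module.End T V := ρ τ with hA
  set B : Module.End T V := A - 1 with hB
  have hAB : A = 1 + B := by rw [hB]; abel
  -- a unit lies in no minimal prime
  have hu𝔭 : ∀ 𝔭 ∈ minimalPrimes T, (u : T) ∉ 𝔭 := by
    intro 𝔭 h𝔭 hmem
    have hprime : 𝔭.IsPrime := h𝔭.1.1
    exact hprime.ne_top (Ideal.eq_top_of_isUnit_mem _ hmem u.isUnit)
  -- Step 1: `det B = 0`
  have hCHB := sq_eq_of_finrank_two hV B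
  have hdetB : LinearMap.det B = 0 := by
    apply eq_zero_of_forall_mem_minimalPrimes
    intro 𝔭 h𝔭
    obtain ⟨M, _, _, hM, φ, hφ, hinv⟩ := HG 𝔭 h𝔭
    by_contra hnot
    apply hφ
    refine LinearMap.ext fun v => ?_
    have hφB : ∀ w, φ (B w) = 0 := by
      intro w
      rw [hB, LinearMap.sub_apply, Module.End.one_apply, map_sub, hinv τ hτ w, sub_self]
    have h2 : LinearMap.det B • v = LinearMap.trace T V B • B v - B (B v) := by
      have := congrArg (fun g : Module.End T V => g v) hCHB
      simp only [Module.End.mul_apply, LinearMap.sub_apply, LinearMap.smul_apply,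
        Module.End.one_apply] at this
      rw [this]; abel
    have h3 : LinearMap.det B • φ v = 0 := by
      rw [← map_smul, h2, map_sub, map_smul, hφB, hφB, smul_zero, sub_zero]
    rcases hM _ _ h3 with h | h
    · exact absurd h hnot
    · rw [h]; rfl
  -- Step 2: `tr B = u`, so `B² = u B`
  have htrB : LinearMap.trace T V B = u := by
    have h := det_one_add_of_finrank_two hV B
    rw [← hAB, hdetB, add_zero] at h
    rw [hu, h]; ring
  have hBB : B * B = (u : T) • B := by
    rw [hCHB, hdetB, zero_smul, sub_zero, htrB]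
  -- Step 3: the idempotent
  set E : Module.End T V := ((u⁻¹ : Tˣ) : T) • B with hEdef
  have hE : IsIdempotentElem E := by
    show E * E = E
    rw [hEdef, smul_mul_smul_comm, hBB, smul_smul, mul_assoc, Units.inv_mul, mul_one]
  have hBE : B = (u : T) • E := by
    rw [hEdef, smul_smul, Units.mul_inv, one_smul]
  have hE0 : E ≠ 0 := by
    intro h
    have hB0 : B = 0 := by rw [hBE, h, smul_zero]
    have hA1 : A = 1 := by rw [hAB, hB0, add_zero]
    have : (u : T) = 0 := by rw [hu, hA1, map_one, sub_self]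
    exact u.ne_zero this
  have hE1 : E ≠ 1 := by
    intro h
    obtain ⟨𝔭, h𝔭⟩ : ∃ 𝔭, 𝔭 ∈ minimalPrimes T := by
      obtain ⟨𝔭, h𝔭, -⟩ := Ideal.exists_minimalPrimes_le (I := (⊥ : Ideal T))
        (J := IsLocalRing.maximalIdeal T) bot_le
      exact ⟨𝔭, h𝔭⟩
    obtain ⟨M, _, _, hM, φ, hφ, hinv⟩ := HG 𝔭 h𝔭
    apply hφ
    refine LinearMap.ext fun v => ?_
    have h1 : φ (B v) = 0 := by
      rw [hB, LinearMap.sub_apply, Module.End.one_apply, map_sub, hinv τ hτ v, sub_self]
    rw [hBE, h, LinearMap.smul_apply, Module.End.one_apply, map_smul] at h1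
    rcases hM _ _ h1 with h | h
    · exact absurd h (hu𝔭 𝔭 h𝔭)
    · rw [h]; rfl
  obtain ⟨b, hb0, hb1⟩ := exists_basis_of_isIdempotentElem hV E hE hE0 hE1
  -- eigen-equations
  have hAe1 : A (b 0) = (1 + (u : T)) • b 0 := by
    rw [hAB, LinearMap.add_apply, Module.End.one_apply, hBE, LinearMap.smul_apply, hb0, add_smul,
      one_smul]
  have hAe2 : A (b 1) = b 1 := by
    rw [hAB, LinearMap.add_apply, Module.End.one_apply, hBE, LinearMap.smul_apply, hb1, smul_zero,
      add_zero]
  have hdecomp : ∀ v : V, v = b.repr v 0 • b 0 + b.repr v 1 • b 1 := by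
    intro v
    conv_lhs => rw [← b.sum_repr v]
    rw [Fin.sum_univ_two]
  -- Step 4: for `σ ∈ I` the `b 1`-coordinates
  have hφe1 : ∀ 𝔭 ∈ minimalPrimes T, ∀ (M : Type x) (_ : AddCommGroup M) (_ : Module T M),
      (∀ (t : T) (m : M), t • m = 0 → t ∈ 𝔭 ∨ m = 0) → ∀ φ : V →ₗ[T] M,
      (∀ σ ∈ I, ∀ v, φ (ρ σ v) = φ v) → φ (b 0) = 0 := by
    intro 𝔭 h𝔭 M _ _ hM φ hinv
    have h1 := hinv τ hτ (b 0)
    rw [← hA, hAe1, map_smul, add_smul, one_smul, add_eq_left] at h1
    rcases hM _ _ h1 with h | h
    · exact absurd h (hu𝔭 𝔭 h𝔭)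
    · exact h
  have hcoord : ∀ σ ∈ I, b.repr (ρ σ (b 0)) 1 = 0 ∧ b.repr (ρ σ (b 1)) 1 = 1 := by
    intro σ hσ
    constructor
    · apply eq_zero_of_forall_mem_minimalPrimes
      intro 𝔭 h𝔭
      obtain ⟨M, _, _, hM, φ, hφ, hinv⟩ := HG 𝔭 h𝔭
      have he1 := hφe1 𝔭 h𝔭 M _ _ hM φ hinv
      have he2 : φ (b 1) ≠ 0 := by
        intro he2
        apply hφ
        refine LinearMap.ext fun v => ?_
        rw [hdecomp v, map_add, map_smul, map_smul, he1, he2, smul_zero, smul_zero, add_zero]
        rfl
      have h1 := hinv σ hσ (b 0)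
      rw [he1, hdecomp (ρ σ (b 0)), map_add, map_smul, map_smul, he1, smul_zero, zero_add] at h1
      rcases hM _ _ h1 with h | h
      · exact h
      · exact absurd h he2
    · rw [← sub_eq_zero]
      apply eq_zero_of_forall_mem_minimalPrimes
      intro 𝔭 h𝔭
      obtain ⟨M, _, _, hM, φ, hφ, hinv⟩ := HG 𝔭 h𝔭
      have he1 := hφe1 𝔭 h𝔭 M _ _ hM φ hinv
      have he2 : φ (b 1) ≠ 0 := by
        intro he2
        apply hφ
        refine LinearMap.ext fun v => ?_
        rw [hdecomp v, map_add, map_smul, map_smul, he1, he2, smul_zero, smul_zero, add_zero]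
        rfl
      have h1 := hinv σ hσ (b 1)
      rw [hdecomp (ρ σ (b 1)), map_add, map_smul, map_smul, he1, smul_zero, zero_add] at h1
      have h2 : (b.repr (ρ σ (b 1)) 1 - 1) • φ (b 1) = 0 := by
        rw [sub_smul, one_smul, h1, sub_self]
      rcases hM _ _ h2 with h | h
      · exact h
      · exact absurd h he2
  -- the line
  have hI : ∀ σ ∈ I, ∀ v : V, ρ σ v - v ∈ Submodule.span T {b 0} := by
    intro σ hσ v
    obtain ⟨hc, hd⟩ := hcoord σ hσ
    obtain ⟨a, h0⟩ : ∃ a : T, ρ σ (b 0) = a • b 0 := by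
      refine ⟨b.repr (ρ σ (b 0)) 0, ?_⟩
      conv_lhs => rw [hdecomp (ρ σ (b 0)), hc, zero_smul, add_zero]
    obtain ⟨c, h1⟩ : ∃ c : T, ρ σ (b 1) = c • b 0 + b 1 := by
      refine ⟨b.repr (ρ σ (b 1)) 0, ?_⟩
      conv_lhs => rw [hdecomp (ρ σ (b 1)), hd, one_smul]
    have h2 : ρ σ v - v = (b.repr v 0 * (a - 1) + b.repr v 1 * c) • b 0 := by
      conv_lhs => rw [hdecomp v]
      rw [map_add, map_smul, map_smul, h0, h1]
      simp only [smul_add, smul_smul, add_smul, sub_smul, mul_sub, mul_one]
      abel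
    rw [h2]
    exact Submodule.smul_mem _ _ (Submodule.mem_span_singleton_self _)
  refine ⟨Submodule.span T {b 0}, ⟨b, rfl⟩, ?_, hI⟩
  -- Step 5: `D`-stability
  have hstab : ∀ g ∈ D, ρ g⁻¹ (b 0) ∈ Submodule.span T {b 0} := by
    intro g hg
    have h1 := hI (g⁻¹ * τ * g) (hnorm g hg τ hτ) (ρ g⁻¹ (b 0))
    have h2 : ρ (g⁻¹ * τ * g) (ρ g⁻¹ (b 0)) - ρ g⁻¹ (b 0) = (u : T) • ρ g⁻¹ (b 0) := by
      have e1 : ρ (g⁻¹ * τ * g) (ρ g⁻¹ (b 0)) = ρ g⁻¹ (A (b 0)) := by
        rw [hA, ← Module.End.mul_apply, ← Module.End.mul_apply, ← map_mul, ← map_mul]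
        congr 2
        group
      rw [e1, hAe1, map_smul, add_smul, one_smul, add_sub_cancel_left]
    rw [h2] at h1
    have h3 := Submodule.smul_mem _ ((u⁻¹ : Tˣ) : T) h1
    rwa [smul_smul, Units.inv_mul, one_smul] at h3
  intro σ hσ v hv
  obtain ⟨c, rfl⟩ := Submodule.mem_span_singleton.mp hv
  rw [map_smul]
  refine Submodule.smul_mem _ _ ?_
  have := hstab σ⁻¹ (D.inv_mem hσ)
  rwa [inv_inv] at this

end Core

end Fermat.Agent.S33x.OrdAlg3
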