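/-
Programme S33x (reduction of S33), chapter C (helper3): **the reduction theorem**.

`s33_of_invariant_functionals` : under the hypotheses of the frozen statement S33 (`p` odd, `p ∥ N`,
primes of `N` in `S`, `H` a Hecke–Galois datum over `(𝒪, T)`; the residual hypothesis `hres` is NOT
needed) PLUS

  (HG) for every `P` over `p` and every minimal prime `𝔭` of `T` there is a nonzero `T`-linear
       functional `φ : H.ρ.V → FractionRing (T ⧸ 𝔭)` invariant under the inertia group of `P`,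

the representation `H.ρ` is ordinary at `p`.  So the ONLY missing input of S33 is: on every irreducible
component of `Spec T` the representation has a nonzero inertia-coinvariant at `p`
(`p`-old components: étale quotient of the good-reduction Tate module at level `N / p`, which needs
`hres`; `p`-new components: toric quotient at `p`).

Proof: `OrdAlg3.exists_line_of_invariant_functionals` with `T` reduced (`S32x.Reduced4.isReduced_T`),
`τ ∈ I_P` with `det ρ(τ) - 1` a unit (`DetCyclo3.exists_mem_inertia_isUnit_det_sub_one`: the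
determinant is cyclotomic and inertia at an odd `p` moves `μ_p`), and `I_P` normal in `D_P`.

Also `s33_of_coinvariants`-style variant `s33_of_invariant_functionals'` with an arbitrary target
module per minimal prime.
-/
import Mathlib
import Fermat.Prelude.Def_CuspForm_HeckeGaloisRepDatum
import Fermat.Prelude.Def_GaloisRep_LocalConditions
import Fermat.Agent.ES.J.PadicAlg8
import Fermat.Agent.S32x.Reduced4
import Fermat.Agent.S33x.OrdAlg3
import Fermat.Agent.S33x.DetCyclo3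

set_option autoImplicit false
set_option linter.unusedSectionVars false
set_option linter.unusedVariables false
set_option linter.style.haveILetI false
set_option synthInstance.maxHeartbeats 400000

open CuspForm

noncomputable section

namespace Fermat.Agent.S33x.Main3

local notation "Qb" => AlgebraicClosure ℚ
local notation "GQ" => (AlgebraicClosure ℚ ≃ₐ[ℚ] AlgebraicClosure ℚ)

variable {p : ℕ} {N : ℕ} [NeZero N] {S : Finset ℕ}
  {𝒪 : Type} [CommRing 𝒪] [IsDomain 𝒪] [IsDiscreteValuationRing 𝒪]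
  [IsAdicComplete (IsLocalRing.maximalIdeal 𝒪) 𝒪]
  {θ : CuspForm.heckeAlgebra N 2 (↑S : Set ℕ) →+* IsLocalRing.ResidueField 𝒪}
  {T : Type} [CommRing T] [IsLocalRing T] [IsNoetherianRing T]
  [IsAdicComplete (IsLocalRing.maximalIdeal T) T] [Algebra 𝒪 T] [IsLocalHom (algebraMap 𝒪 T)]
  [Module.Finite 𝒪 T] [Module.Free 𝒪 T]

/-- `p ∈ 𝔪_T`. -/
theorem natCast_mem_maximalIdeal_T (hp𝒪 : (p : 𝒪) ∈ IsLocalRing.maximalIdeal 𝒪) :
    (p : T) ∈ IsLocalRing.maximalIdeal T := by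
  rw [IsLocalRing.mem_maximalIdeal, mem_nonunits_iff]
  intro hu
  have h1 : IsUnit (algebraMap 𝒪 T (p : 𝒪)) := by rwa [map_natCast]
  exact (IsLocalRing.mem_maximalIdeal _).mp hp𝒪 (IsUnit.of_map (algebraMap 𝒪 T) _ h1)

/-- the fraction field of `T ⧸ 𝔭` is a "`𝔭`-torsion-free" `T`-module. -/
theorem smul_eq_zero_fractionRing (𝔭 : Ideal T) [𝔭.IsPrime] (t : T)
    (m : FractionRing (T ⧸ 𝔭)) (h : t • m = 0) : t ∈ 𝔭 ∨ m = 0 := by
  have h1 : t • m = algebraMap (T ⧸ 𝔭) (FractionRing (T ⧸ 𝔭)) (Ideal.Quotient.mk 𝔭 t) * m := by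
    rw [← smul_eq_mul, algebraMap_smul, ← Ideal.Quotient.algebraMap_eq, algebraMap_smul]
  rw [h1, mul_eq_zero] at h
  rcases h with h | h
  · left
    rw [← Ideal.Quotient.eq_zero_iff_mem]
    exact (IsFractionRing.injective (T ⧸ 𝔭) (FractionRing (T ⧸ 𝔭)))
      (by rw [h, map_zero])
  · exact Or.inr h

/-- **The S33 reduction, general target modules.** -/
theorem s33_of_invariant_functionals' [CharZero 𝒪]
    (hp : p.Prime) (hp2 : p ≠ 2) (hp𝒪 : (p : 𝒪) ∈ IsLocalRing.maximalIdeal 𝒪)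
    (hpN : p ∣ N) (hNS : ∀ q : ℕ, q.Prime → q ∣ N → q ∈ S)
    (H : CuspForm.HeckeGaloisRepDatum N (↑S : Set ℕ) 𝒪 θ T)
    (HG : ∀ P : ValuationSubring Qb, P.LiesOverPrime p → ∀ 𝔭 ∈ minimalPrimes T,
      ∃ (M : Type) (_ : AddCommGroup M) (_ : Module T M),
        (∀ (t : T) (m : M), t • m = 0 → t ∈ 𝔭 ∨ m = 0) ∧
        ∃ φ : H.ρ.V →ₗ[T] M, φ ≠ 0 ∧
          ∀ σ ∈ P.inertiaSubgroupIn ℚ, ∀ v : H.ρ.V, φ (H.ρ.ρ σ v) = φ v) :
    H.ρ.IsOrdinaryAt p := by
  haveI : Fact p.Prime := ⟨hp⟩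
  have hpS : p ∈ S := hNS p hp hpN
  have hpT : (p : T) ∈ IsLocalRing.maximalIdeal T := natCast_mem_maximalIdeal_T hp𝒪
  letI : Algebra ℤ_[p] T :=
    Fermat.Agent.ES.J.PadicAlg8.padicAlgebra p (IsLocalRing.maximalIdeal T) hpT
  haveI : IsReduced T := Fermat.Agent.S32x.Reduced4.isReduced_T hNS H
  intro P hP
  obtain ⟨τ, hτ, hunit⟩ :=
    Fermat.Agent.S33x.DetCyclo3.exists_mem_inertia_isUnit_det_sub_one hp2 hpT hpS hNS H P hP
  exact Fermat.Agent.S33x.OrdAlg3.exists_line_of_invariant_functionals H.ρ.finrank_eq H.ρ.ρ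
    (P.inertiaSubgroupIn ℚ) (P.decompositionSubgroup ℚ)
    (fun g hg σ hσ => Fermat.Agent.S33x.DetCyclo3.conj_mem_inertiaSubgroupIn P hg hσ)
    τ hτ hunit (HG P hP)

/-- **The S33 reduction** (`s33_of_invariant_functionals`): the hypotheses of the frozen statement
S33 plus a nonzero inertia-invariant functional to `Frac (T ⧸ 𝔭)` for every place `P` over `p` and
every minimal prime `𝔭` of `T`. -/
theorem s33_of_invariant_functionals
    [Finite (IsLocalRing.ResidueField 𝒪)] [CharZero 𝒪]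
    (hp : p.Prime) (hp2 : p ≠ 2) (hp𝒪 : (p : 𝒪) ∈ IsLocalRing.maximalIdeal 𝒪)
    (hN : p ∣ N ∧ ¬ p ^ 2 ∣ N)
    (hNS : ∀ q : ℕ, q.Prime → q ∣ N → q ∈ S)
    (H : CuspForm.HeckeGaloisRepDatum N (↑S : Set ℕ) 𝒪 θ T)
    (hres : (GaloisRepAdic.ofResidualGaloisRep H.ρ.residual).IsOrdinaryAt p)
    (HG : ∀ P : ValuationSubring Qb, P.LiesOverPrime p → ∀ 𝔭 ∈ minimalPrimes T,
      ∃ φ : H.ρ.V →ₗ[T] FractionRing (T ⧸ 𝔭), φ ≠ 0 ∧
        ∀ σ ∈ P.inertiaSubgroupIn ℚ, ∀ v : H.ρ.V, φ (H.ρ.ρ σ v) = φ v) :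
    H.ρ.IsOrdinaryAt p := by
  refine s33_of_invariant_functionals' hp hp2 hp𝒪 hN.1 hNS H ?_
  intro P hP 𝔭 h𝔭
  haveI : 𝔭.IsPrime := h𝔭.1.1
  obtain ⟨φ, hφ, hinv⟩ := HG P hP 𝔭 h𝔭
  exact ⟨FractionRing (T ⧸ 𝔭), inferInstance, inferInstance,
    smul_eq_zero_fractionRing 𝔭, φ, hφ, hinv⟩

end Fermat.Agent.S33x.Main3
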