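/-
Programme S33x (reduction of S33), chapter D (helper3): **the coinvariant form of the reduction**.

`s33_of_coinvariants` : under the hypotheses of the frozen statement S33, if for every place `P` over
`p` and every minimal prime `𝔭` of `T`, with `F = Frac (T ⧸ 𝔭)`, the `F`-span of
`{(ρ σ ⊗ F) w - w | σ ∈ I_P, w ∈ F ⊗[T] V}` is a PROPER subspace of `F ⊗[T] V`
(i.e. the inertia coinvariants `(V ⊗ F)_{I_P}` are nonzero), then `H.ρ` is ordinary at `p`.

Proof: `Main3.s33_of_invariant_functionals'` with `M = (F ⊗[T] V) ⧸ J` and `φ v = [1 ⊗ v]`.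
-/
import Mathlib
import Fermat.Agent.S33x.Main3

set_option autoImplicit false
set_option linter.unusedSectionVars false
set_option linter.unusedVariables false
set_option linter.style.haveILetI false
set_option synthInstance.maxHeartbeats 400000

open CuspForm TensorProduct

noncomputable section

namespace Fermat.Agent.S33x.Coinv3

local notation "Qb" => AlgebraicClosure ℚ
local notation "GQ" => (AlgebraicClosure ℚ ≃ₐ[ℚ] AlgebraicClosure ℚ)

section Abstract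

variable {T : Type} [CommRing T] {V : Type} [AddCommGroup V] [Module T V]
  {G : Type} [Group G] (ρ : G →* Module.End T V) (I : Subgroup G)
  (F : Type) [Field F] [Algebra T F]

/-- the `F`-span of `(ρ σ ⊗ F - 1)(F ⊗ V)`, `σ ∈ I`: the kernel of `F ⊗ V → (F ⊗ V)_I`. -/
def augSpan : Submodule F (F ⊗[T] V) :=
  Submodule.span F {w | ∃ σ ∈ I, ∃ x : F ⊗[T] V, w = (ρ σ).baseChange F x - x}

/-- the canonical `T`-linear map `V → (F ⊗ V)_I`. -/
def toCoinv : V →ₗ[T] (F ⊗[T] V) ⧸ augSpan ρ I F :=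
  ((augSpan ρ I F).mkQ.restrictScalars T).comp (TensorProduct.mk T F V 1)

theorem toCoinv_apply (v : V) :
    toCoinv ρ I F v = (augSpan ρ I F).mkQ ((1 : F) ⊗ₜ[T] v) := rfl

theorem toCoinv_ne_zero (h : augSpan ρ I F ≠ ⊤) : toCoinv ρ I F ≠ 0 := by
  intro h0
  apply h
  rw [eq_top_iff]
  intro w _
  revert w
  have key : ∀ w : F ⊗[T] V, w ∈ augSpan ρ I F := by
    intro w
    induction w using TensorProduct.induction_on with
    | zero => exact Submodule.zero_mem _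
    | tmul f v =>
      have h1 : (1 : F) ⊗ₜ[T] v ∈ augSpan ρ I F := by
        have := congrArg (fun g : V →ₗ[T] (F ⊗[T] V) ⧸ augSpan ρ I F => g v) h0
        simp only [toCoinv_apply, LinearMap.zero_apply] at this
        rwa [Submodule.mkQ_apply, Submodule.Quotient.mk_eq_zero] at this
      have h2 : f ⊗ₜ[T] v = f • ((1 : F) ⊗ₜ[T] v) := by
        rw [TensorProduct.smul_tmul', smul_eq_mul, mul_one]
      rw [h2]
      exact Submodule.smul_mem _ _ h1
    | add x y hx hy => exact Submodule.add_mem _ hx hy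
  exact fun w _ => key w

theorem toCoinv_invariant {σ : G} (hσ : σ ∈ I) (v : V) :
    toCoinv ρ I F (ρ σ v) = toCoinv ρ I F v := by
  rw [toCoinv_apply, toCoinv_apply, ← sub_eq_zero, ← map_sub, Submodule.mkQ_apply,
    Submodule.Quotient.mk_eq_zero]
  refine Submodule.subset_span ⟨σ, hσ, (1 : F) ⊗ₜ[T] v, ?_⟩
  rw [LinearMap.baseChange_tmul]

end Abstract

variable {p : ℕ} {N : ℕ} [NeZero N] {S : Finset ℕ}
  {𝒪 : Type} [CommRing 𝒪] [IsDomain 𝒪] [IsDiscreteValuationRing 𝒪]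
  [IsAdicComplete (IsLocalRing.maximalIdeal 𝒪) 𝒪]
  {θ : CuspForm.heckeAlgebra N 2 (↑S : Set ℕ) →+* IsLocalRing.ResidueField 𝒪}
  {T : Type} [CommRing T] [IsLocalRing T] [IsNoetherianRing T]
  [IsAdicComplete (IsLocalRing.maximalIdeal T) T] [Algebra 𝒪 T] [IsLocalHom (algebraMap 𝒪 T)]
  [Module.Finite 𝒪 T] [Module.Free 𝒪 T]

/-- **The S33 reduction, coinvariant form**: S33 follows from `(V ⊗ Frac (T ⧸ 𝔭))_{I_P} ≠ 0` for every
place `P` over `p` and every minimal prime `𝔭` of `T`. -/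
theorem s33_of_coinvariants
    [Finite (IsLocalRing.ResidueField 𝒪)] [CharZero 𝒪]
    (hp : p.Prime) (hp2 : p ≠ 2) (hp𝒪 : (p : 𝒪) ∈ IsLocalRing.maximalIdeal 𝒪)
    (hN : p ∣ N ∧ ¬ p ^ 2 ∣ N)
    (hNS : ∀ q : ℕ, q.Prime → q ∣ N → q ∈ S)
    (H : CuspForm.HeckeGaloisRepDatum N (↑S : Set ℕ) 𝒪 θ T)
    (hres : (GaloisRepAdic.ofResidualGaloisRep H.ρ.residual).IsOrdinaryAt p)
    (HC : ∀ P : ValuationSubring Qb, P.LiesOverPrime p → ∀ (𝔭 : Ideal T) [𝔭.IsPrime],
      𝔭 ∈ minimalPrimes T →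
      augSpan H.ρ.ρ (P.inertiaSubgroupIn ℚ) (FractionRing (T ⧸ 𝔭)) ≠ ⊤) :
    H.ρ.IsOrdinaryAt p := by
  refine Fermat.Agent.S33x.Main3.s33_of_invariant_functionals' hp hp2 hp𝒪 hN.1 hNS H ?_
  intro P hP 𝔭 h𝔭
  haveI : 𝔭.IsPrime := h𝔭.1.1
  refine ⟨(FractionRing (T ⧸ 𝔭) ⊗[T] H.ρ.V) ⧸
      augSpan H.ρ.ρ (P.inertiaSubgroupIn ℚ) (FractionRing (T ⧸ 𝔭)), inferInstance, inferInstance,
    ?_, toCoinv H.ρ.ρ (P.inertiaSubgroupIn ℚ) (FractionRing (T ⧸ 𝔭)),
    toCoinv_ne_zero _ _ _ (HC P hP 𝔭 h𝔭), fun σ hσ v => toCoinv_invariant _ _ _ hσ v⟩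
  intro t m h
  have h1 : t • m = (algebraMap T (FractionRing (T ⧸ 𝔭)) t) • m := by
    rw [algebraMap_smul]
  rw [h1, smul_eq_zero] at h
  rcases h with h | h
  · left
    rw [IsScalarTower.algebraMap_apply T (T ⧸ 𝔭) (FractionRing (T ⧸ 𝔭)),
      Ideal.Quotient.algebraMap_eq] at h
    rw [← Ideal.Quotient.eq_zero_iff_mem]
    exact (IsFractionRing.injective (T ⧸ 𝔭) (FractionRing (T ⧸ 𝔭))) (by rw [h, map_zero])
  · exact Or.inr h

end Fermat.Agent.S33x.Coinv3
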