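/-
S33x (reduction of S33), input (b3) (helper7): **inertia at `p` moves `μ_p`**.

For an odd prime `p` and a valuation subring `A` of `ℚ̄` over `p` there is `τ` in the inertia group
`A.inertiaSubgroupIn ℚ` with `τ η = η ^ 2` for every `p`-th root of unity `η`; hence
`ε(τ) ≡ 2 ≢ 1 mod p` for the `p`-adic cyclotomic character `ε = cyclo p`, and `ε(τ) - 1` is a unit
of `ℤ_p` (so is its image in every ring receiving `ℤ_p`).

Route: `K = ℚ(ζ_p)`, `τ₀ ∈ Gal(K/ℚ)` the automorphism `ζ ↦ ζ²` (`fromZetaAut`); integral elements of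
`K` are polynomials in `ζ` (Mathlib), `f(ζ²) - f(ζ)` is divisible by `ζ - 1`, and `ζ - 1` is in the
maximal ideal of `A` because `(ζ̄ - 1)^p = ζ̄^p - 1 = 0` in the residue field; so `τ₀` moves integral
elements into the maximal ideal and lifts to the inertia group of `A`
(`S13.UnramBridge.exists_inertia_lift`).
-/
import Mathlib
import Fermat.Agent.S13.UnramBridge
import Fermat.Agent.ES.J.CycloChar8

set_option autoImplicit false
set_option linter.style.haveILetI false

namespace Fermat.Agent.S33x.InertiaCyclo7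

open Polynomial Fermat.Agent.ES.J.CycloChar8

local notation "Qb" => AlgebraicClosure ℚ

section Val

variable (A : ValuationSubring Qb)

/-- An element of `A` whose class in `A` lies in the maximal ideal is a nonunit (trivial repackaging). -/
theorem mem_nonunits_of_mem_maximalIdeal {a : A} (ha : a ∈ IsLocalRing.maximalIdeal A) :
    (a : Qb) ∈ A.nonunits :=
  (ValuationSubring.mem_nonunits_iff_exists_mem_maximalIdeal).2 ⟨a.2, ha⟩

/-- `η ^ p = 1` and `A ∣ p` ⇒ `η - 1 ∈ 𝔪_A` (as an element of `A`). -/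
theorem sub_one_mem_maximalIdeal {p : ℕ} (hp : p.Prime) (hA : A.LiesOverPrime p) (η : A)
    (hη : η ^ p = 1) : η - 1 ∈ IsLocalRing.maximalIdeal A := by
  have hpA : ((p : A)) ∈ IsLocalRing.maximalIdeal A := by
    obtain ⟨h1, h2⟩ := (ValuationSubring.mem_nonunits_iff_exists_mem_maximalIdeal).1 hA
    have : (⟨(p : Qb), h1⟩ : A) = (p : A) := by
      apply Subtype.ext
      simp
    rwa [this] at h2
  have hp0 : (p : IsLocalRing.ResidueField A) = 0 := by
    have := (IsLocalRing.residue_eq_zero_iff (p : A)).2 hpA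
    simpa using this
  haveI : Fact p.Prime := ⟨hp⟩
  haveI : CharP (IsLocalRing.ResidueField A) p := (CharP.charP_iff_prime_eq_zero hp).2 hp0
  rw [← IsLocalRing.residue_eq_zero_iff]
  have h1 : (IsLocalRing.residue A η - 1) ^ p = 0 := by
    rw [sub_pow_char, one_pow, ← map_pow, hη, map_one, sub_self]
  rw [map_sub, map_one]
  exact pow_eq_zero_iff (hp.ne_zero) |>.1 h1

/-- For `f ∈ ℤ[X]` and `a, b ∈ A`: `f(a) - f(b) ∈ (a - b) A`, read in `ℚ̄`. -/
theorem aeval_sub_aeval (f : ℤ[X]) (a b : A) :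
    ∃ c : A, aeval (a : Qb) f - aeval (b : Qb) f = ((a - b) * c : A) := by
  obtain ⟨c, hc⟩ := Polynomial.sub_dvd_eval_sub a b (f.map (Int.castRingHom A))
  refine ⟨c, ?_⟩
  have key : ∀ x : A, aeval (x : Qb) f = ((eval x (f.map (Int.castRingHom A)) : A) : Qb) := by
    intro x
    rw [eval_map, aeval_def]
    have : (algebraMap ℤ Qb) = (A.subtype : A →+* Qb).comp (Int.castRingHom A) :=
      RingHom.ext_int _ _
    rw [this]
    exact (hom_eval₂ f (Int.castRingHom A) (A.subtype : A →+* Qb) x).symm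
  rw [key a, key b, ← hc]
  push_cast
  rfl

end Val

section Main

variable (p : ℕ) [hp : Fact p.Prime]

/-- **Inertia at `p` moves `μ_p`**: there is `τ ∈ I_A` (`A ∣ p`, `p` odd) squaring every `p`-th
root of unity. -/
theorem exists_inertia_apply_eq_sq (hp2 : p ≠ 2) (A : ValuationSubring Qb)
    (hA : A.LiesOverPrime p) :
    ∃ τ ∈ A.inertiaSubgroupIn ℚ, ∀ η : Qb, η ^ p = 1 → τ η = η ^ 2 := by
  classical
  haveI : NeZero p := ⟨hp.out.ne_zero⟩
  obtain ⟨ζ, hζ1⟩ := exists_primitiveRoot p 1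
  have hζ : IsPrimitiveRoot ζ p := by simpa using hζ1
  let K : IntermediateField ℚ Qb := IntermediateField.adjoin ℚ {ζ}
  haveI : IsCyclotomicExtension {p} ℚ K := hζ.intermediateField_adjoin_isCyclotomicExtension ℚ
  -- the distinguished primitive root of `K`
  set z : K := IsCyclotomicExtension.zeta p ℚ K with hz_def
  have hz : IsPrimitiveRoot z p := IsCyclotomicExtension.zeta_spec p ℚ K
  have hzQ : IsPrimitiveRoot (z : Qb) p := by
    have := hz.map_of_injective (f := algebraMap K Qb) (algebraMap K Qb).injective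
    simpa using this
  have hcop : Nat.Coprime 2 p := by
    rw [Nat.coprime_comm]
    exact (Nat.coprime_primes hp.out Nat.prime_two).2 hp2
  have hμ : IsPrimitiveRoot (z ^ 2) p := hz.pow_of_coprime 2 hcop
  have hirr : Irreducible (cyclotomic p ℚ) := cyclotomic.irreducible_rat hp.out.pos
  let τ₀ : K ≃ₐ[ℚ] K := IsCyclotomicExtension.fromZetaAut hμ hirr
  have hτ₀ : τ₀ z = z ^ 2 := IsCyclotomicExtension.fromZetaAut_spec hμ hirr
  -- `z ∈ A`
  have hzA : (z : Qb) ∈ A := mem_of_pow_eq_one (A := A) hp.out.ne_zero hzQ.pow_eq_one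
  let zA : A := ⟨(z : Qb), hzA⟩
  have hzA1 : zA - 1 ∈ IsLocalRing.maximalIdeal A := by
    apply sub_one_mem_maximalIdeal A hp.out hA
    apply Subtype.ext
    simpa [zA] using hzQ.pow_eq_one
  -- the condition of `exists_inertia_lift`
  have hcond : ∀ x : K, IsIntegral ℤ x → (((τ₀ x : K) : Qb) - x) ∈ A.nonunits := by
    intro x hx
    have hcl := IsCyclotomicExtension.Rat.isIntegralClosure_adjoin_singleton_of_prime (p := p)
      (K := K) hz
    obtain ⟨y, hy⟩ := hcl.isIntegral_iff.1 hx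
    have hy' : (y : K) ∈ (Algebra.adjoin ℤ ({z} : Set K)) := y.2
    rw [Algebra.adjoin_singleton_eq_range_aeval] at hy'
    obtain ⟨f, hf⟩ := hy'
    have hxf : x = aeval z f := by
      rw [← hy]
      exact hf.symm
    have h1 : ((x : K) : Qb) = aeval (z : Qb) f := by
      rw [hxf]
      exact (aeval_algebraMap_apply Qb z f).symm
    have h2 : ((τ₀ x : K) : Qb) = aeval ((z : Qb) ^ 2) f := by
      rw [hxf]
      have : τ₀ (aeval z f) = aeval (z ^ 2) f := by
        rw [← hτ₀]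
        exact (aeval_algHom_apply (τ₀ : K →ₐ[ℚ] K).toRingHom.toIntAlgHom z f).symm
      rw [this]
      have := (aeval_algebraMap_apply Qb (z ^ 2) f).symm
      simpa using this
    obtain ⟨c, hc⟩ := aeval_sub_aeval A f (zA ^ 2) zA
    have e : ((τ₀ x : K) : Qb) - x = (((zA ^ 2 - zA) * c : A) : Qb) := by
      rw [h1, h2, ← hc]
      rfl
    rw [e]
    apply mem_nonunits_of_mem_maximalIdeal
    have : (zA ^ 2 - zA) * c = (zA - 1) * (zA * c) := by ring
    rw [this]
    exact Ideal.mul_mem_right _ _ hzA1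
  obtain ⟨σ, hσI, hσK⟩ :=
    Fermat.Agent.S13.UnramBridge.exists_inertia_lift K A hp.out hA τ₀ hcond
  refine ⟨σ, hσI, fun η hη => ?_⟩
  obtain ⟨i, -, rfl⟩ := hzQ.eq_pow_of_pow_eq_one hη
  rw [map_pow, hσK z, hτ₀]
  push_cast
  ring

/-- `ε(τ) - 1` is a unit of `ℤ_p` for some `τ` in the inertia group at `A ∣ p`, `p` odd. -/
theorem exists_inertia_isUnit_cyclo_sub_one (hp2 : p ≠ 2) (A : ValuationSubring Qb)
    (hA : A.LiesOverPrime p) :
    ∃ τ ∈ A.inertiaSubgroupIn ℚ, IsUnit (((cyclo p τ : ℤ_[p]ˣ) : ℤ_[p]) - 1) := by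
  obtain ⟨τ, hτI, hτ⟩ := exists_inertia_apply_eq_sq p hp2 A hA
  refine ⟨τ, hτI, ?_⟩
  obtain ⟨ζ, hζ1⟩ := exists_primitiveRoot p 1
  have hspec := cyclo_spec p τ ζ hζ1.pow_eq_one
  have hζp : ζ ^ p = 1 := by simpa using hζ1.pow_eq_one
  rw [hτ ζ hζp] at hspec
  have hmod := modEq_of_pow_eq_pow hζ1 (pow_ne_zero 1 hp.out.ne_zero) hspec
  -- `toZModPow 1 (ε τ) = 2`
  have h2 : (((cyclo p τ : ℤ_[p]ˣ) : ℤ_[p]).toZModPow 1) = 2 := by
    have := (ZMod.natCast_eq_natCast_iff _ _ _).2 hmod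
    rw [ZMod.natCast_val, ZMod.cast_id', id] at this
    rw [← this]
    norm_cast
  rw [← IsLocalRing.notMem_maximalIdeal, PadicInt.maximalIdeal_eq_span_p]
  intro hmem
  have hker : ((cyclo p τ : ℤ_[p]ˣ) : ℤ_[p]) - 1 ∈ RingHom.ker (PadicInt.toZModPow (p := p) 1) := by
    rw [PadicInt.ker_toZModPow]
    simpa using hmem
  rw [RingHom.mem_ker, map_sub, map_one, h2] at hker
  have h10 : (1 : ZMod (p ^ 1)) = 0 := by
    have : (2 : ZMod (p ^ 1)) - 1 = 1 := by ring
    rw [this] at hker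
    exact hker
  haveI : Fact (1 < p ^ 1) := ⟨by simpa using hp.out.one_lt⟩
  exact one_ne_zero h10

/-- The same in any ring receiving `ℤ_p`: `φ (ε τ) - 1` is a unit (e.g. `φ = algebraMap ℤ_[p] T`,
for which `φ (ε τ) = S32x.EigenW5A.dT p T τ` by `dT_apply`). -/
theorem exists_inertia_isUnit_map_cyclo_sub_one (hp2 : p ≠ 2) (A : ValuationSubring Qb)
    (hA : A.LiesOverPrime p) :
    ∃ τ ∈ A.inertiaSubgroupIn ℚ, ∀ {R : Type*} [Ring R] (φ : ℤ_[p] →+* R),
      IsUnit (φ ((cyclo p τ : ℤ_[p]ˣ) : ℤ_[p]) - 1) := by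
  obtain ⟨τ, hτI, hτ⟩ := exists_inertia_isUnit_cyclo_sub_one p hp2 A hA
  refine ⟨τ, hτI, fun φ => ?_⟩
  have := hτ.map φ
  rwa [map_sub, map_one] at this

end Main

end Fermat.Agent.S33x.InertiaCyclo7
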