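/-
Programme S33x (reduction of S33), assembly, part 1 (helper4): **`IsOrdinaryAt p` for a Hecke–Galois
datum from inertia-invariant functionals on the irreducible components of `Spec T`.**

`isOrdinaryAt_of_tau`: with the variables of the frozen statement S33, assume
* (Hτ) for every valuation subring `P` of `ℚ̄` over `p` there is `τ` in the inertia group of `P` with
  `det (ρ τ) - 1` a unit of `T` (true because `det ρ` is the `p`-adic cyclotomic character and `p` is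
  odd: chapters `DetCyclo3`/`InertiaCyclo3`);
* (HG) for every such `P` and every minimal prime `𝔮` of `T` there is a nonzero `T`-linear functional
  `φ : V → Frac (T ⧸ 𝔮)` invariant under the inertia group of `P`.
Then `H.ρ.IsOrdinaryAt p`.  Inputs: `OrdAlg3.exists_line_of_invariant_functionals` (pure algebra),
`Reduced4.isReduced_T` (`T` is reduced), `FrobFacts12.conj_mem_inertiaSubgroupIn` (inertia is normal
in the decomposition group).  The residual hypothesis `hres` of S33 is not needed.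
-/
import Mathlib
import Fermat.Prelude.Def_CuspForm_HeckeGaloisRepDatum
import Fermat.Prelude.Def_GaloisRep_LocalConditions
import Fermat.Agent.S33x.OrdAlg3
import Fermat.Agent.S32x.Reduced4
import Fermat.Agent.ES.FROB.FrobFacts12

set_option autoImplicit false

open IsLocalRing

namespace Fermat.Agent.S33x.Main4

section Torsion

variable {T : Type*} [CommRing T]

/-- `Frac (T ⧸ 𝔮)` is a `T`-module in which the annihilator of every nonzero element is `𝔮`. -/
theorem smul_eq_zero_fractionRing (𝔮 : Ideal T) [𝔮.IsPrime] (t : T) (m : FractionRing (T ⧸ 𝔮))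
    (h : t • m = 0) : t ∈ 𝔮 ∨ m = 0 := by
  rw [Algebra.smul_def] at h
  rcases mul_eq_zero.1 h with h1 | h1
  · left
    rw [IsScalarTower.algebraMap_apply T (T ⧸ 𝔮) (FractionRing (T ⧸ 𝔮)),
      ← map_zero (algebraMap (T ⧸ 𝔮) (FractionRing (T ⧸ 𝔮))),
      (IsFractionRing.injective (T ⧸ 𝔮) (FractionRing (T ⧸ 𝔮))).eq_iff] at h1
    exact Ideal.Quotient.eq_zero_iff_mem.1 h1
  · exact Or.inr h1

end Torsion

section Datum

variable {p : ℕ} {N : ℕ} [NeZero N] {S : Finset ℕ}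
  {𝒪 : Type} [CommRing 𝒪] [IsDomain 𝒪] [IsDiscreteValuationRing 𝒪]
  [IsAdicComplete (IsLocalRing.maximalIdeal 𝒪) 𝒪]
  {θ : CuspForm.heckeAlgebra N 2 (↑S : Set ℕ) →+* IsLocalRing.ResidueField 𝒪}
  {T : Type} [CommRing T] [IsLocalRing T] [IsNoetherianRing T]
  [IsAdicComplete (IsLocalRing.maximalIdeal T) T] [Algebra 𝒪 T] [IsLocalHom (algebraMap 𝒪 T)]
  [Module.Finite 𝒪 T] [Module.Free 𝒪 T]

/-- **S33 from (Hτ) and the invariant functionals (HG).** -/
theorem isOrdinaryAt_of_tau [CharZero 𝒪] (hNS : ∀ q : ℕ, q.Prime → q ∣ N → q ∈ S)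
    (H : CuspForm.HeckeGaloisRepDatum N (↑S : Set ℕ) 𝒪 θ T)
    (Hτ : ∀ P : ValuationSubring (AlgebraicClosure ℚ), P.LiesOverPrime p →
      ∃ τ ∈ P.inertiaSubgroupIn ℚ, IsUnit (LinearMap.det (H.ρ.ρ τ) - 1))
    (HG : ∀ P : ValuationSubring (AlgebraicClosure ℚ), P.LiesOverPrime p →
      ∀ 𝔮 ∈ minimalPrimes T, ∃ φ : H.ρ.V →ₗ[T] FractionRing (T ⧸ 𝔮), φ ≠ 0 ∧
        ∀ σ ∈ P.inertiaSubgroupIn ℚ, ∀ v, φ (H.ρ.ρ σ v) = φ v) :
    H.ρ.IsOrdinaryAt p := by
  have hred : IsReduced T := Fermat.Agent.S32x.Reduced4.isReduced_T hNS H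
  intro P hP
  obtain ⟨τ, hτI, hτu⟩ := Hτ P hP
  refine Fermat.Agent.S33x.OrdAlg3.exists_line_of_invariant_functionals H.ρ.finrank_eq H.ρ.ρ
    (P.inertiaSubgroupIn ℚ) (P.decompositionSubgroup ℚ) ?_ τ hτI hτu ?_
  · intro g hg σ hσ
    have h := Fermat.Agent.ES.FROB.FrobFacts12.conj_mem_inertiaSubgroupIn P
      ((P.decompositionSubgroup ℚ).inv_mem hg) hσ
    rwa [inv_inv] at h
  · intro 𝔮 h𝔮
    have : 𝔮.IsPrime := h𝔮.1.1
    obtain ⟨φ, hφ0, hφI⟩ := HG P hP 𝔮 h𝔮
    exact ⟨FractionRing (T ⧸ 𝔮), inferInstance, inferInstance,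
      smul_eq_zero_fractionRing 𝔮, φ, hφ0, hφI⟩

end Datum

end Fermat.Agent.S33x.Main4
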